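import Mathlib
import Fermat.Prelude.Def_FLTPrelim_FreyPackage

set_option autoImplicit false

namespace Fermat.Agent.H1

/-- Coprime case with `b` even: possibly negate everything to get `a ≡ 3 mod 4`. -/
theorem freyPackage_of_coprime_even (a b c : ℤ) (ha : a ≠ 0) (hb : b ≠ 0) (hc : c ≠ 0)
    (p : ℕ) (pp : p.Prime) (hp5 : 5 ≤ p) (H : a ^ p + b ^ p = c ^ p)
    (hgcd : gcd a b = 1) (hb2 : (b : ZMod 2) = 0) : Nonempty FreyPackage := by
  have p_odd : Odd p := pp.odd_of_ne_two (by omega)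
  have h2b : (2 : ℤ) ∣ b := (ZMod.intCast_zmod_eq_zero_iff_dvd b 2).1 hb2
  have ha_odd : ¬ (2 : ℤ) ∣ a := by
    intro h2a
    have h : (2 : ℤ) ∣ gcd a b := dvd_gcd h2a h2b
    rw [hgcd] at h
    norm_num at h
  have h13 : a % 4 = 1 ∨ a % 4 = 3 := by omega
  rcases h13 with h1 | h3
  · refine ⟨⟨-a, -b, -c, neg_ne_zero.2 ha, neg_ne_zero.2 hb, neg_ne_zero.2 hc, p, pp, hp5,
      ?_, ?_, ?_, ?_⟩⟩
    · rw [p_odd.neg_pow, p_odd.neg_pow, p_odd.neg_pow, ← H]; ring
    · rw [gcd_neg, neg_gcd]; exact hgcd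
    · have h4 : ((-a : ℤ) : ZMod 4) = ((3 : ℤ) : ZMod 4) := by
        rw [ZMod.intCast_eq_intCast_iff_dvd_sub]
        push_cast
        omega
      rw [h4]; rfl
    · push_cast; rw [hb2]; simp
  · refine ⟨⟨a, b, c, ha, hb, hc, p, pp, hp5, H, hgcd, ?_, hb2⟩⟩
    have h4 : ((a : ℤ) : ZMod 4) = ((3 : ℤ) : ZMod 4) := by
      rw [ZMod.intCast_eq_intCast_iff_dvd_sub]
      push_cast
      omega
    rw [h4]; rfl

/-- Coprime case: permute so that `b` is even. -/
theorem freyPackage_of_coprime (a b c : ℤ) (ha : a ≠ 0) (hb : b ≠ 0) (hc : c ≠ 0)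
    (p : ℕ) (pp : p.Prime) (hp5 : 5 ≤ p) (H : a ^ p + b ^ p = c ^ p)
    (hgcd : gcd a b = 1) : Nonempty FreyPackage := by
  have p_odd : Odd p := pp.odd_of_ne_two (by omega)
  have hp0 : p ≠ 0 := by omega
  have hppos : 0 < p := by omega
  by_cases h2b : (2 : ℤ) ∣ b
  · exact freyPackage_of_coprime_even a b c ha hb hc p pp hp5 H hgcd
      ((ZMod.intCast_zmod_eq_zero_iff_dvd b 2).2 h2b)
  by_cases h2a : (2 : ℤ) ∣ a
  · refine freyPackage_of_coprime_even b a c hb ha hc p pp hp5 (by rw [add_comm]; exact H)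
      (by rw [gcd_comm]; exact hgcd) ((ZMod.intCast_zmod_eq_zero_iff_dvd a 2).2 h2a)
  -- both `a` and `b` odd, so `c` is even
  have ha_odd : Odd a := by
    rcases Int.even_or_odd a with h | h
    · exact absurd (even_iff_two_dvd.1 h) h2a
    · exact h
  have hb_odd : Odd b := by
    rcases Int.even_or_odd b with h | h
    · exact absurd (even_iff_two_dvd.1 h) h2b
    · exact h
  have hc_even : Even c := by
    have h1 : Even (c ^ p) := by
      rw [← H]
      exact (ha_odd.pow).add_odd (hb_odd.pow)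
    exact (Int.even_pow.1 h1).1
  have h2c : (2 : ℤ) ∣ c := even_iff_two_dvd.1 hc_even
  have hgcdac : gcd a c = 1 := by
    rw [← FreyPackage.gcdab_eq_gcdac hppos H]; exact hgcd
  refine freyPackage_of_coprime_even a (-c) (-b) ha (neg_ne_zero.2 hc) (neg_ne_zero.2 hb)
    p pp hp5 ?_ ?_ ?_
  · rw [p_odd.neg_pow, p_odd.neg_pow, ← H]; ring
  · rw [gcd_neg]; exact hgcdac
  · exact (ZMod.intCast_zmod_eq_zero_iff_dvd (-c) 2).2 ((dvd_neg).2 h2c)

/-- General case: divide out by the gcd. -/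
theorem freyPackage_of_counterexample (a b c : ℤ) (ha : a ≠ 0) (hb : b ≠ 0) (hc : c ≠ 0)
    (p : ℕ) (pp : p.Prime) (hp5 : 5 ≤ p) (H : a ^ p + b ^ p = c ^ p) :
    Nonempty FreyPackage := by
  have hp0 : p ≠ 0 := by omega
  have hd0 : (gcd a b : ℤ) ≠ 0 := by
    intro h
    exact ha ((gcd_eq_zero_iff a b).1 h).1
  obtain ⟨a', ha'⟩ : gcd a b ∣ a := gcd_dvd_left a b
  obtain ⟨b', hb'⟩ : gcd a b ∣ b := gcd_dvd_right a b
  have hdc : gcd a b ∣ c := by
    rw [← Int.pow_dvd_pow_iff hp0, ← H]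
    exact dvd_add (pow_dvd_pow_of_dvd (gcd_dvd_left a b) p)
      (pow_dvd_pow_of_dvd (gcd_dvd_right a b) p)
  obtain ⟨c', hc'⟩ := hdc
  set d : ℤ := gcd a b with hd
  have ha'0 : a' ≠ 0 := by
    rintro rfl
    exact ha (by rw [ha', mul_zero])
  have hb'0 : b' ≠ 0 := by
    rintro rfl
    exact hb (by rw [hb', mul_zero])
  have hc'0 : c' ≠ 0 := by
    rintro rfl
    exact hc (by rw [hc', mul_zero])
  have H' : a' ^ p + b' ^ p = c' ^ p := by
    have h1 : d ^ p * (a' ^ p + b' ^ p) = d ^ p * c' ^ p := by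
      rw [mul_add, ← mul_pow, ← mul_pow, ← mul_pow, ← ha', ← hb', ← hc']
      exact H
    exact mul_left_cancel₀ (pow_ne_zero p hd0) h1
  have hgcd' : gcd a' b' = 1 := by
    have h1 : gcd (d * a') (d * b') = d := by
      rw [← ha', ← hb']
    rw [gcd_mul_left] at h1
    have h2 : normalize d = d := by
      rw [hd]; exact normalize_gcd a b
    rw [h2] at h1
    exact mul_left_cancel₀ hd0 (by rw [h1, mul_one])
  exact freyPackage_of_coprime a' b' c' ha'0 hb'0 hc'0 p pp hp5 H' hgcd'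

end Fermat.Agent.H1
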