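import Mathlib

set_option autoImplicit false

namespace Fermat.Agent.H1

/-- INT-2: Galois descent for finite-dimensional subspaces of `ℂ⟦q⟧` stable under all
coefficientwise ring endomorphisms of `ℂ`. -/
theorem span_rat_of_stable
    (H : ∀ a : ℂ, a ∉ Set.range ((↑) : ℚ → ℂ) → ∃ σ : ℂ →+* ℂ, σ a ≠ a)
    (V : Submodule ℂ (PowerSeries ℂ)) [FiniteDimensional ℂ V]
    (hV : ∀ (σ : ℂ →+* ℂ), ∀ v ∈ V, PowerSeries.map σ v ∈ V) :
    V ≤ Submodule.span ℂ {v | v ∈ V ∧ ∀ n, ∃ r : ℚ, PowerSeries.coeff n v = (r : ℂ)} := by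
  classical
  let φ : ℕ → Module.Dual ℂ V := fun n => (PowerSeries.coeff n).comp V.subtype
  have hφ : ∀ n (v : V), φ n v = PowerSeries.coeff n (v : PowerSeries ℂ) := fun _ _ => rfl
  have hspan : Submodule.span ℂ (Set.range φ) = ⊤ := by
    have h0 : (Submodule.span ℂ (Set.range φ)).dualCoannihilator = ⊥ := by
      rw [eq_bot_iff]
      intro v hv
      rw [Submodule.mem_dualCoannihilator] at hv
      rw [Submodule.mem_bot]
      apply Subtype.ext
      ext n
      have := hv (φ n) (Submodule.subset_span ⟨n, rfl⟩)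
      simpa [hφ] using this
    have h1 := Subspace.dualCoannihilator_dualAnnihilator_eq
      (W := Submodule.span ℂ (Set.range φ))
    rw [h0, Submodule.dualAnnihilator_bot] at h1
    exact h1.symm
  obtain ⟨b, hbsub, hbspan, hbli⟩ := exists_linearIndependent ℂ (Set.range φ)
  let B : Module.Basis b ℂ (Module.Dual ℂ V) :=
    Module.Basis.mk hbli (by rw [Subtype.range_coe, hbspan, hspan])
  have hBcoe : ∀ i : b, B i = (i : Module.Dual ℂ V) := fun i => by
    simp [B]
  have : Finite b := Module.Finite.finite_basis B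
  let B' : Module.Basis b ℂ V := B.dualBasis.map (Module.evalEquiv ℂ V).symm
  have hB' : ∀ i j : b, (B i) (B' j) = if i = j then 1 else 0 := by
    intro i j
    simp only [B', Module.Basis.map_apply]
    erw [Module.apply_evalEquiv_symm_apply]
    rw [Module.Basis.dualBasis_apply_self]
  have hBn : ∀ i : b, ∃ n, B i = φ n := by
    intro i
    obtain ⟨n, hn⟩ := hbsub i.2
    exact ⟨n, by rw [hBcoe, hn]⟩
  have hsep : ∀ u w : V, (∀ i, B i u = B i w) → u = w := by
    intro u w h
    apply (Module.evalEquiv ℂ V).injective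
    apply B.ext
    intro i
    simp only [Module.evalEquiv_apply, Module.Dual.eval_apply]
    exact h i
  have hfix : ∀ (σ : ℂ →+* ℂ) (j : b),
      PowerSeries.map σ (B' j : PowerSeries ℂ) = (B' j : PowerSeries ℂ) := by
    intro σ j
    have hmem := hV σ (B' j) (B' j).2
    have h2 : (⟨_, hmem⟩ : V) = B' j := by
      apply hsep
      intro i
      obtain ⟨n, hn⟩ := hBn i
      have h1 := hB' i j
      rw [hn] at h1 ⊢
      rw [hφ] at h1 ⊢
      rw [hφ]
      simp only [PowerSeries.coeff_map]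
      rw [h1]
      split_ifs <;> simp
    exact congrArg Subtype.val h2
  have hrat : ∀ (j : b) (n : ℕ),
      ∃ r : ℚ, PowerSeries.coeff n (B' j : PowerSeries ℂ) = (r : ℂ) := by
    intro j n
    by_contra hcon
    have hnot : PowerSeries.coeff n (B' j : PowerSeries ℂ) ∉ Set.range ((↑) : ℚ → ℂ) := by
      rintro ⟨r, hr⟩
      exact hcon ⟨r, hr.symm⟩
    obtain ⟨σ, hσ⟩ := H _ hnot
    apply hσ
    rw [← PowerSeries.coeff_map, hfix σ j]
  intro v hv
  have hv' : (⟨v, hv⟩ : V) ∈ Submodule.span ℂ (Set.range B') := by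
    rw [B'.span_eq]; trivial
  have h3 : v ∈ Submodule.map V.subtype (Submodule.span ℂ (Set.range B')) :=
    ⟨⟨v, hv⟩, hv', rfl⟩
  rw [Submodule.map_span] at h3
  refine Submodule.span_mono ?_ h3
  rintro _ ⟨_, ⟨j, rfl⟩, rfl⟩
  exact ⟨(B' j).2, hrat j⟩

end Fermat.Agent.H1
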