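import Fermat.Agent.H1.RingHomMove
import Fermat.Agent.H1.GaloisDescent

set_option autoImplicit false

namespace Fermat.Agent.H1

/-- INT-1 + INT-2 combined: a finite-dimensional subspace of `ℂ⟦q⟧` stable under all
coefficientwise ring endomorphisms of `ℂ` is spanned by its elements with rational
coefficients. -/
theorem span_rat_of_stable' (V : Submodule ℂ (PowerSeries ℂ)) [FiniteDimensional ℂ V]
    (hV : ∀ (σ : ℂ →+* ℂ), ∀ v ∈ V, PowerSeries.map σ v ∈ V) :
    V ≤ Submodule.span ℂ {v | v ∈ V ∧ ∀ n, ∃ r : ℚ, PowerSeries.coeff n v = (r : ℂ)} :=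
  span_rat_of_stable exists_ringHom_ne V hV

end Fermat.Agent.H1
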