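import Mathlib

set_option autoImplicit false

namespace Fermat.Agent.H1

/-- Any ring automorphism of a domain `R` mapping injectively to `ℂ` extends to a ring
automorphism of `ℂ`. -/
theorem exists_ringEquiv_extend {R : Type*} [CommRing R] [IsDomain R] [Algebra R ℂ]
    [FaithfulSMul R ℂ] (τ : R ≃+* R) :
    ∃ σ : ℂ ≃+* ℂ, ∀ r : R, σ (algebraMap R ℂ r) = algebraMap R ℂ (τ r) := by
  obtain ⟨ι, x, hx⟩ := exists_isTranscendenceBasis' R ℂ
  have : IsAlgClosure (Algebra.adjoin R (Set.range x)) ℂ :=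
    IsAlgClosed.isAlgClosure_of_transcendence_basis x hx
  let e : (Algebra.adjoin R (Set.range x)) ≃+* (Algebra.adjoin R (Set.range x)) :=
    (hx.1.aevalEquiv.symm.toRingEquiv).trans
      ((MvPolynomial.mapEquiv ι τ).trans hx.1.aevalEquiv.toRingEquiv)
  refine ⟨IsAlgClosure.equivOfEquiv ℂ ℂ e, fun r => ?_⟩
  have h1 : algebraMap R ℂ r =
      algebraMap (Algebra.adjoin R (Set.range x)) ℂ
        (algebraMap R (Algebra.adjoin R (Set.range x)) r) := rfl
  have h2 : algebraMap R ℂ (τ r) =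
      algebraMap (Algebra.adjoin R (Set.range x)) ℂ
        (algebraMap R (Algebra.adjoin R (Set.range x)) (τ r)) := rfl
  rw [h1, h2, IsAlgClosure.equivOfEquiv_algebraMap]
  congr 1
  have h3 : hx.1.aevalEquiv.symm (algebraMap R (Algebra.adjoin R (Set.range x)) r)
      = MvPolynomial.C r := by
    rw [AlgEquiv.symm_apply_eq]
    exact (hx.1.aevalEquiv.commutes r).symm
  change hx.1.aevalEquiv ((MvPolynomial.mapEquiv ι τ)
    (hx.1.aevalEquiv.symm (algebraMap R (Algebra.adjoin R (Set.range x)) r))) = _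
  rw [h3]
  have h4 : (MvPolynomial.mapEquiv ι τ) (MvPolynomial.C r) = MvPolynomial.C (τ r) := by
    simp
  rw [h4]
  exact hx.1.aevalEquiv.commutes (τ r)

theorem exists_ringHom_ne_of_isAlgebraic (a : ℂ) (ha : a ∉ Set.range ((↑) : ℚ → ℂ))
    (halg : IsAlgebraic ℚ a) : ∃ σ : ℂ →+* ℂ, σ a ≠ a := by
  have : IsAlgClosure ℚ (algebraicClosure ℚ ℂ) := algebraicClosure.isAlgClosure ℚ ℂ
  have : IsGalois ℚ (algebraicClosure ℚ ℂ) := inferInstance
  let a' : algebraicClosure ℚ ℂ := ⟨a, (mem_algebraicClosure_iff).2 halg⟩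
  have hna : a' ∉ Set.range (algebraMap ℚ (algebraicClosure ℚ ℂ)) := by
    rintro ⟨q, hq⟩
    apply ha
    refine ⟨q, ?_⟩
    have := congrArg Subtype.val hq
    simpa using this
  rw [InfiniteGalois.mem_range_algebraMap_iff_fixed] at hna
  simp only [not_forall] at hna
  obtain ⟨f, hf⟩ := hna
  obtain ⟨σ, hσ⟩ := exists_ringEquiv_extend (R := algebraicClosure ℚ ℂ) f.toRingEquiv
  refine ⟨σ.toRingHom, ?_⟩
  have h := hσ a'
  intro hcon
  apply hf
  apply Subtype.ext
  have h5 : algebraMap (algebraicClosure ℚ ℂ) ℂ a' = a := rfl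
  rw [h5] at h
  have h6 : (σ.toRingHom a) = σ a := rfl
  rw [h6] at hcon
  rw [hcon] at h
  exact h.symm

theorem exists_ringHom_ne_of_transcendental (a : ℂ) (htr : Transcendental ℚ a) :
    ∃ σ : ℂ →+* ℂ, σ a ≠ a := by
  let _ : Algebra (Polynomial ℚ) ℂ := (Polynomial.aeval a).toRingHom.toAlgebra
  have : FaithfulSMul (Polynomial ℚ) ℂ :=
    (faithfulSMul_iff_algebraMap_injective _ _).2 (transcendental_iff_injective.1 htr)
  obtain ⟨σ, hσ⟩ := exists_ringEquiv_extend (R := Polynomial ℚ)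
    (Polynomial.algEquivAevalXAddC (1 : ℚ)).toRingEquiv
  refine ⟨σ.toRingHom, ?_⟩
  have h := hσ Polynomial.X
  have h1 : algebraMap (Polynomial ℚ) ℂ Polynomial.X = a := Polynomial.aeval_X a
  have h2 : algebraMap (Polynomial ℚ) ℂ
      ((Polynomial.algEquivAevalXAddC (1 : ℚ)).toRingEquiv Polynomial.X) = a + 1 := by
    change Polynomial.aeval a ((Polynomial.algEquivAevalXAddC (1 : ℚ)) Polynomial.X) = a + 1
    simp [Polynomial.algEquivAevalXAddC]
  rw [h1, h2] at h
  intro hcon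
  have h6 : (σ.toRingHom a) = σ a := rfl
  rw [h6, h] at hcon
  simp at hcon

/-- INT-1: every irrational complex number is moved by some ring endomorphism of `ℂ`. -/
theorem exists_ringHom_ne (a : ℂ) (ha : a ∉ Set.range ((↑) : ℚ → ℂ)) :
    ∃ σ : ℂ →+* ℂ, σ a ≠ a := by
  by_cases halg : IsAlgebraic ℚ a
  · exact exists_ringHom_ne_of_isAlgebraic a ha halg
  · exact exists_ringHom_ne_of_transcendental a halg

end Fermat.Agent.H1
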