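import Mathlib
import Fermat.Agent.H21.CocDefs
import Fermat.Prelude.Def_CuspForm_HeckeAlgebra

set_option autoImplicit false

open UpperHalfPlane CongruenceSubgroup Matrix.SpecialLinearGroup
open scoped MatrixGroups ModularForm Manifold
open Fermat.Agent.H21

namespace Fermat.Agent.H1

/-- HF-X4: the diagonal restriction of `act γ I` is `N`-periodic when `I` is `Γ₀(N)`-invariant. -/
theorem periodic_act_diag (N : ℕ) [NeZero N] (w : ℕ) (I : ℍ → ℂ → ℂ → ℂ)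
    (hinv : ∀ γ ∈ Gamma0 N, act (mapGL ℝ γ) I = I) (γ : SL(2, ℤ)) (τ : ℍ) (n : ℤ) :
    act (mapGL ℝ γ) I ((ModularGroup.T ^ ((N : ℤ) * n)) • τ)
        (((ModularGroup.T ^ ((N : ℤ) * n)) • τ : ℍ) : ℂ) 1
      = act (mapGL ℝ γ) I τ (τ : ℂ) 1 := by
  have htΓ : (ModularGroup.T ^ ((N : ℤ) * n)) ∈ Gamma N := by
    rw [Gamma_mem, ModularGroup.coe_T_zpow]
    simp
  have hδ : γ * (ModularGroup.T ^ ((N : ℤ) * n)) * γ⁻¹ ∈ Gamma0 N := by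
    have h1 : γ * (ModularGroup.T ^ ((N : ℤ) * n)) * γ⁻¹ ∈ Gamma N :=
      (Gamma_normal N).conj_mem _ htΓ γ
    rw [Gamma_mem] at h1
    rw [Gamma0_mem]
    exact h1.2.2.1
  have h2 := hinv _ hδ
  have h3 : act (mapGL ℝ (ModularGroup.T ^ ((N : ℤ) * n))) (act (mapGL ℝ γ) I)
      = act (mapGL ℝ γ) I := by
    have hmul : mapGL ℝ (γ * (ModularGroup.T ^ ((N : ℤ) * n)) * γ⁻¹) * mapGL ℝ γ
        = mapGL ℝ γ * mapGL ℝ (ModularGroup.T ^ ((N : ℤ) * n)) := by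
      rw [← map_mul, ← map_mul]
      congr 1
      group
    calc act (mapGL ℝ (ModularGroup.T ^ ((N : ℤ) * n))) (act (mapGL ℝ γ) I)
        = act (mapGL ℝ γ * mapGL ℝ (ModularGroup.T ^ ((N : ℤ) * n))) I := (act_mul _ _ _).symm
      _ = act (mapGL ℝ (γ * (ModularGroup.T ^ ((N : ℤ) * n)) * γ⁻¹) * mapGL ℝ γ) I := by
          rw [hmul]
      _ = act (mapGL ℝ γ) (act (mapGL ℝ (γ * (ModularGroup.T ^ ((N : ℤ) * n)) * γ⁻¹)) I) :=
          act_mul _ _ _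
      _ = act (mapGL ℝ γ) I := by rw [h2]
  have h4 := congrFun (congrFun (congrFun h3 τ) (τ : ℂ)) 1
  rw [← h4]
  have hsm : (mapGL ℝ (ModularGroup.T ^ ((N : ℤ) * n))) • τ
      = (ModularGroup.T ^ ((N : ℤ) * n)) • τ := rfl
  have hent : ∀ i j : Fin 2,
      ((mapGL ℝ (ModularGroup.T ^ ((N : ℤ) * n)) : GL (Fin 2) ℝ) i j : ℝ)
        = (((ModularGroup.T ^ ((N : ℤ) * n) : SL(2, ℤ)) i j : ℤ) : ℝ) := by
    intro i j
    rfl
  have e00 : ((mapGL ℝ (ModularGroup.T ^ ((N : ℤ) * n)) : GL (Fin 2) ℝ) 0 0 : ℝ) = 1 := by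
    rw [hent, ModularGroup.coe_T_zpow]; simp
  have e01 : ((mapGL ℝ (ModularGroup.T ^ ((N : ℤ) * n)) : GL (Fin 2) ℝ) 0 1 : ℝ)
      = ((N : ℤ) * n : ℤ) := by
    rw [hent, ModularGroup.coe_T_zpow]; simp
  have e10 : ((mapGL ℝ (ModularGroup.T ^ ((N : ℤ) * n)) : GL (Fin 2) ℝ) 1 0 : ℝ) = 0 := by
    rw [hent, ModularGroup.coe_T_zpow]; simp
  have e11 : ((mapGL ℝ (ModularGroup.T ^ ((N : ℤ) * n)) : GL (Fin 2) ℝ) 1 1 : ℝ) = 1 := by
    rw [hent, ModularGroup.coe_T_zpow]; simp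
  conv_rhs => rw [act_apply (mapGL ℝ (ModularGroup.T ^ ((N : ℤ) * n)))]
  rw [subst_apply, e00, e01, e10, e11, hsm, ModularGroup.coe_T_zpow_smul_eq]
  congr 1
  · push_cast; ring
  · push_cast; ring

end Fermat.Agent.H1
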